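import Fermat.Agent.S44.PsiEig.CoreT

/-!
M59 / SINK A, cell [PSI-INV], abstract core (helper20).  Prefix `m59sap_`.

`F/K` a function field, `z ∈ Pic⁰(F)[p]`, `g` a semilinear automorphism, `Wv` a valuation subring
of `F` which is "inertial" for `g` (`g • f - f ∈ 𝔪` for `f ∈ Wv`) and whose value group is that of
the constants, `T` a `K`-algebra endomorphism commuting with `g`.  Then `g • z - z` is represented
by `(g • D - D, g • f / f)` with `T (g • f / f) = 1 ^ p * (1 + x)`, `x ∈ 𝔪` (depth `≥ 1` at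
`Wv ∘ T`).  No hypothesis on the eigenvalue, no algebraic closedness: this is the first half of the
proof of [PSI-EIG] (`s44pe_core`), isolated.
-/

set_option autoImplicit false

namespace Fermat.Agent.M59

open AlgebraicCurve Fermat.Agent.S24 Fermat.Agent.S44

universe u v
variable {K : Type u} {F : Type v} [Field K] [Field F] [Algebra K F]

/-- **[PSI-INV], abstract core, in the shape of the frame.** -/
theorem m59sap_core_frame {p : ℕ} (z : Pic0 K F) (hz : p • z = 0)
    (g : SemilinearAut K F)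
    (Wv : ValuationSubring F) (hinv : ∀ f ∈ Wv, g • f - f ∈ Wv.nonunits)
    (hnrm : ∀ f : F, f ≠ 0 → ∃ c : K, c ≠ 0 ∧ algebraMap K F c * f ∈ Wv ∧
      (algebraMap K F c * f)⁻¹ ∈ Wv)
    (T : F →ₐ[K] F) (hT : ∀ f : F, T (g • f) = g • T f) :
    ∃ f : F, (f ≠ 0 ∧ ∃ D : Divisor.degZero (K := K) (F := F), Pic0.mk D = g • z - z ∧
        ∀ v : Place K F, (p : ℤ) * (D : Divisor K F) v = v.ord f) ∧
      ∃ h x : F, h ≠ 0 ∧ x ∈ Wv.nonunits ∧ T f = h ^ p * (1 + x) := by
  obtain ⟨D, f₀, hrep₀⟩ := s44pe_exists_rep p z hz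
  have hTf₀ : T f₀ ≠ 0 := by
    rw [Ne, map_eq_zero]
    exact hrep₀.1
  obtain ⟨c, hc, hcf, hcf'⟩ := hnrm (T f₀) hTf₀
  have hrep : s44pe_Rep p z D (algebraMap K F c * f₀) := hrep₀.const_mul hc
  have hTcf : T (algebraMap K F c * f₀) = algebraMap K F c * T f₀ := by
    rw [map_mul, AlgHom.commutes]
  rw [← hTcf] at hcf hcf'
  generalize algebraMap K F c * f₀ = f at hcf hcf' hrep
  have hf : f ≠ 0 := hrep.1
  have hgf : g • f ≠ 0 := by simpa using hf
  have hTf : T f ≠ 0 := by
    rw [Ne, map_eq_zero]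
    exact hf
  refine ⟨g • f / f, ⟨div_ne_zero hgf hf, SemilinearAut.degZeroSMulHom g D - D, ?_, ?_⟩,
    1, T (g • f / f) - 1, one_ne_zero, ?_, ?_⟩
  · -- the class
    rw [← hrep.2.1, SemilinearAut.pic0_smul_mk]
    rfl
  · -- the divisor
    intro v
    have e1 : v.ord (g • f) = (p : ℤ) * (D : Divisor K F) (g⁻¹ • v) := by
      rw [s44pe_ord_smul, hrep.2.2]
    have e2 : ((SemilinearAut.degZeroSMulHom g D - D : Divisor.degZero (K := K) (F := F)) :
        Divisor K F) v = (D : Divisor K F) (g⁻¹ • v) - (D : Divisor K F) v := by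
      simp only [AddSubgroup.coe_sub, SemilinearAut.coe_degZeroSMulHom, Finsupp.sub_apply,
        SemilinearAut.divisor_smul_apply]
    rw [e2, div_eq_mul_inv, v.ord_mul hgf (inv_ne_zero hf), v.ord_inv, e1, ← hrep.2.2 v]
    ring
  · -- the depth
    have hvf : Wv.valuation (T f) = 1 := by
      have h1 := (Wv.valuation_le_one_iff (T f)).mpr hcf
      have h2 := (Wv.valuation_le_one_iff (T f)⁻¹).mpr hcf'
      rw [map_inv₀] at h2
      exact le_antisymm h1 ((inv_le_one₀ ((Valuation.pos_iff _).mpr hTf)).mp h2)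
    have hdiff : Wv.valuation (g • T f - T f) < 1 := Wv.mem_nonunits_iff.mp (hinv (T f) hcf)
    rw [ValuationSubring.mem_nonunits_iff]
    have e : T (g • f / f) - 1 = (g • T f - T f) * (T f)⁻¹ := by
      rw [map_div₀, hT]
      field_simp
    rw [e, map_mul, map_inv₀, hvf, inv_one, mul_one]
    exact hdiff
  · rw [one_pow, one_mul, add_sub_cancel]

end Fermat.Agent.M59
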