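import Fermat.Agent.M59.SinkA.Low.Seams
import Fermat.Agent.M59.SinkA.PsiEig.InvCore
import Fermat.Agent.S44.PsiEig.Main

/-!
M59 / SINK A, cells [PSI-EIG] and [PSI-INV], CLOSED for the frame `m59sa_frame2 P M hpM`
(helper20).  Prefix `m59sap_`.

* `m59sap_psiEig P M hpM : m59sa_PsiEig_stmt (m59sa_frame2 P M hpM)` = twin of `s44pe_psiEig`
  (S44/PsiEig/{Bridge,Main}.lean, helper5/helper28) for a package (`P.hp2` replaces `P.hp5`);
* `m59sap_psiInv P M hpM : m59sa_PsiInv_stmt (m59sa_frame2 P M hpM)` (NEW) from the abstract core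
  `m59sap_core_frame` and the SAME instance facts about the Gauss valuation ring
  (`s44pg_W`, `s44pg_mem_iff`, `s44pg_const`, `s44pg_nrm`, `s44pe_inv`, `s44pe_Wbar_smul`: all
  generic on main).
-/

set_option autoImplicit false

namespace Fermat.Agent.M59

open ModularCurve AlgebraicCurve Fermat.Agent.JT3 Fermat.Agent.S35 Fermat.Agent.SS Fermat.Agent.S44

/-- **[PSI-EIG] glue** (twin of `s44pe_psiEig_of`). -/
theorem m59sap_psiEig_of (P : m59sa_Pkg) (M : ℕ) [NeZero M] [NeZero (M * P.p)]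
    (hpM : ¬ P.p ∣ M)
    (Winf : ValuationSubring (modularFunctionFieldBar (M * P.p)))
    (hmem : ∀ b : modularFunctionFieldBar (M * P.p), b ∈ Winf →
      s44f_Int2 (M * P.p) (s44f_A P.p P.pp) b)
    (hcA : ∀ c ∈ s44f_A P.p P.pp,
      algebraMap (AlgebraicClosure ℚ) (modularFunctionFieldBar (M * P.p)) c ∈ Winf)
    (hnrm : ∀ f : modularFunctionFieldBar (M * P.p), f ≠ 0 → ∃ c : AlgebraicClosure ℚ, c ≠ 0 ∧
      algebraMap (AlgebraicClosure ℚ) (modularFunctionFieldBar (M * P.p)) c * f ∈ Winf ∧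
      (algebraMap (AlgebraicClosure ℚ) (modularFunctionFieldBar (M * P.p)) c * f)⁻¹ ∈ Winf)
    (hinv : ∀ σ ∈ (s44f_A P.p P.pp).inertiaSubgroupIn ℚ,
      ∀ f ∈ Winf, arithmeticGalois (modularFunctionFieldFull (M * P.p)) σ • f - f ∈ Winf.nonunits)
    (hW : ∀ σ ∈ (s44f_A P.p P.pp).inertiaSubgroupIn ℚ,
      ∀ f : modularFunctionFieldBar (M * P.p),
        ssm_al_Wbar M P.p P.pp hpM (arithmeticGalois (modularFunctionFieldFull (M * P.p)) σ • f) =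
          arithmeticGalois (modularFunctionFieldFull (M * P.p)) σ • ssm_al_Wbar M P.p P.pp hpM f) :
    m59sa_PsiEig_stmt (m59sa_frame2 P M hpM) := by
  have : Fact P.p.Prime := ⟨P.pp⟩
  have hp2 : P.p ≠ 2 := P.hp2
  obtain ⟨σ₀, hσ₀, k₀, hk₀, hk1⟩ := s44c_chiRam P.p hp2 (s44f_A P.p P.pp)
    (s44f_A_liesOver P.p P.pp) (s44f_zeta P.p P.pp) (s44f_zeta_spec P.p P.pp)
  have hp0 : ((P.p : ℕ) : AlgebraicClosure ℚ) ≠ 0 := by
    exact_mod_cast P.hp0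
  have hpA : ((P.p : ℕ) : AlgebraicClosure ℚ) ∈ (s44f_A P.p P.pp).nonunits :=
    s44f_A_liesOver P.p P.pp
  intro z hz hchi
  have hgz : arithmeticGalois (modularFunctionFieldFull (M * P.p)) σ₀ • z = k₀ • z :=
    hchi σ₀ hσ₀ k₀ hk₀
  -- the common step
  have key : ∀ T : modularFunctionFieldBar (M * P.p) →ₐ[AlgebraicClosure ℚ]
      modularFunctionFieldBar (M * P.p),
      (∀ f, T (arithmeticGalois (modularFunctionFieldFull (M * P.p)) σ₀ • f) =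
        arithmeticGalois (modularFunctionFieldFull (M * P.p)) σ₀ • T f) →
      ∃ c : s44_Qb, c ≠ 0 ∧ c ∈ (s44f_A P.p P.pp).nonunits ∧
        s44f_Depth2 (M * P.p) (s44f_A P.p P.pp) P.p c T z := by
    intro T hT
    obtain ⟨f, ⟨hf0, D, hD, hord⟩, h, x, hh, hx, hTf⟩ :=
      s44pe_core_frame P.pp z hz (s44pe_hconst (M * P.p))
        (arithmeticGalois (modularFunctionFieldFull (M * P.p)) σ₀) k₀ hgz hk1 Winf
        (hinv σ₀ hσ₀) hnrm T hT
    obtain ⟨c, hc0, hcA', b, hb, hxb⟩ :=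
      s44pe_nonunits_factor (s44f_A P.p P.pp) Winf hcA hnrm hp0 hpA hx
    refine ⟨c, hc0, hcA', f, ⟨hf0, D, hD, hord⟩, h, b, hh, hmem b hb, ?_⟩
    rw [hTf, hxb]
  exact ⟨key (AlgHom.id _ _) (fun f => rfl), key (ssm_al_Wbar M P.p P.pp hpM) (hW σ₀ hσ₀)⟩

/-- **[PSI-INV] glue** (NEW). -/
theorem m59sap_psiInv_of (P : m59sa_Pkg) (M : ℕ) [NeZero M] [NeZero (M * P.p)]
    (hpM : ¬ P.p ∣ M)
    (Winf : ValuationSubring (modularFunctionFieldBar (M * P.p)))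
    (hmem : ∀ b : modularFunctionFieldBar (M * P.p), b ∈ Winf →
      s44f_Int2 (M * P.p) (s44f_A P.p P.pp) b)
    (hcA : ∀ c ∈ s44f_A P.p P.pp,
      algebraMap (AlgebraicClosure ℚ) (modularFunctionFieldBar (M * P.p)) c ∈ Winf)
    (hnrm : ∀ f : modularFunctionFieldBar (M * P.p), f ≠ 0 → ∃ c : AlgebraicClosure ℚ, c ≠ 0 ∧
      algebraMap (AlgebraicClosure ℚ) (modularFunctionFieldBar (M * P.p)) c * f ∈ Winf ∧
      (algebraMap (AlgebraicClosure ℚ) (modularFunctionFieldBar (M * P.p)) c * f)⁻¹ ∈ Winf)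
    (hinv : ∀ σ ∈ (s44f_A P.p P.pp).inertiaSubgroupIn ℚ,
      ∀ f ∈ Winf, arithmeticGalois (modularFunctionFieldFull (M * P.p)) σ • f - f ∈ Winf.nonunits)
    (hW : ∀ σ ∈ (s44f_A P.p P.pp).inertiaSubgroupIn ℚ,
      ∀ f : modularFunctionFieldBar (M * P.p),
        ssm_al_Wbar M P.p P.pp hpM (arithmeticGalois (modularFunctionFieldFull (M * P.p)) σ • f) =
          arithmeticGalois (modularFunctionFieldFull (M * P.p)) σ • ssm_al_Wbar M P.p P.pp hpM f) :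
    m59sa_PsiInv_stmt (m59sa_frame2 P M hpM) := by
  have hp0 : ((P.p : ℕ) : AlgebraicClosure ℚ) ≠ 0 := by
    exact_mod_cast P.hp0
  have hpA : ((P.p : ℕ) : AlgebraicClosure ℚ) ∈ (s44f_A P.p P.pp).nonunits :=
    s44f_A_liesOver P.p P.pp
  intro z hz σ hσ
  -- the common step
  have key : ∀ T : modularFunctionFieldBar (M * P.p) →ₐ[AlgebraicClosure ℚ]
      modularFunctionFieldBar (M * P.p),
      (∀ f, T (arithmeticGalois (modularFunctionFieldFull (M * P.p)) σ • f) =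
        arithmeticGalois (modularFunctionFieldFull (M * P.p)) σ • T f) →
      ∃ c : s44_Qb, c ≠ 0 ∧ c ∈ (s44f_A P.p P.pp).nonunits ∧
        s44f_Depth2 (M * P.p) (s44f_A P.p P.pp) P.p c T (σ • z - z) := by
    intro T hT
    obtain ⟨f, ⟨hf0, D, hD, hord⟩, h, x, hh, hx, hTf⟩ :=
      m59sap_core_frame z hz
        (arithmeticGalois (modularFunctionFieldFull (M * P.p)) σ) Winf
        (hinv σ hσ) hnrm T hT
    obtain ⟨c, hc0, hcA', b, hb, hxb⟩ :=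
      s44pe_nonunits_factor (s44f_A P.p P.pp) Winf hcA hnrm hp0 hpA hx
    refine ⟨c, hc0, hcA', f, ⟨hf0, D, hD, hord⟩, h, b, hh, hmem b hb, ?_⟩
    rw [hTf, hxb]
  exact ⟨key (AlgHom.id _ _) (fun f => rfl), key (ssm_al_Wbar M P.p P.pp hpM) (hW σ hσ)⟩

/-- **[PSI-EIG]** for the frame, closed (twin of `s44pe_psiEig`). -/
theorem m59sap_psiEig (P : m59sa_Pkg) (M : ℕ) [NeZero M] [NeZero (M * P.p)]
    (hpM : ¬ P.p ∣ M) : m59sa_PsiEig_stmt (m59sa_frame2 P M hpM) :=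
  m59sap_psiEig_of P M hpM
    (s44pg_W (s44f_A P.p P.pp) (s44f_A_liesOver P.p P.pp) P.hp0 (M * P.p))
    (fun b hb => (s44pg_mem_iff (s44f_A P.p P.pp) (s44f_A_liesOver P.p P.pp) P.hp0 (M * P.p) b).1 hb)
    (fun c hc => (s44pg_const (s44f_A P.p P.pp) (s44f_A_liesOver P.p P.pp) P.hp0 (M * P.p) c).2 hc)
    (fun _ hf => s44pg_nrm (s44f_A P.p P.pp) (s44f_A_liesOver P.p P.pp) P.hp0 (M * P.p) hf)
    (fun σ hσ f hf => s44pe_inv (M * P.p) (s44f_A P.p P.pp) _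
      (fun b => s44pg_mem_iff (s44f_A P.p P.pp) (s44f_A_liesOver P.p P.pp) P.hp0 (M * P.p) b)
      σ hσ f hf)
    (fun σ _ f => s44pe_Wbar_smul M P.p P.pp hpM σ f)

/-- **[PSI-INV]** for the frame, closed (NEW). -/
theorem m59sap_psiInv (P : m59sa_Pkg) (M : ℕ) [NeZero M] [NeZero (M * P.p)]
    (hpM : ¬ P.p ∣ M) : m59sa_PsiInv_stmt (m59sa_frame2 P M hpM) :=
  m59sap_psiInv_of P M hpM
    (s44pg_W (s44f_A P.p P.pp) (s44f_A_liesOver P.p P.pp) P.hp0 (M * P.p))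
    (fun b hb => (s44pg_mem_iff (s44f_A P.p P.pp) (s44f_A_liesOver P.p P.pp) P.hp0 (M * P.p) b).1 hb)
    (fun c hc => (s44pg_const (s44f_A P.p P.pp) (s44f_A_liesOver P.p P.pp) P.hp0 (M * P.p) c).2 hc)
    (fun _ hf => s44pg_nrm (s44f_A P.p P.pp) (s44f_A_liesOver P.p P.pp) P.hp0 (M * P.p) hf)
    (fun σ hσ f hf => s44pe_inv (M * P.p) (s44f_A P.p P.pp) _
      (fun b => s44pg_mem_iff (s44f_A P.p P.pp) (s44f_A_liesOver P.p P.pp) P.hp0 (M * P.p) b)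
      σ hσ f hf)
    (fun σ _ f => s44pe_Wbar_smul M P.p P.pp hpM σ f)

end Fermat.Agent.M59
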